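import Fermat.Agent.ArtinReciprocity.Herbrand

/-!
# The fixed classes of a quotient by the image of an equivariant map

`f : M → D` commutes with the cyclic actions `s` and `t`, every element of norm one of `M` is of the
form `s x / x` and so is every element of norm one of `D`. The classes of `D` modulo `f M` fixed by
`t` are counted by the zeroth group of `D` modulo the images of the fixed elements of `M`, times
the fixed units that are norms modulo the norms of units, over the first group of the units.
-/

set_option autoImplicit false

noncomputable section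

namespace FA.AmbClass

open FA.ArtinRec

variable {M D : Type*} [CommGroup M] [CommGroup D] (s : M →* M) (t : D →* D) (n : ℕ) (f : M →* D)

/-- The elements of `D` whose class modulo the image of `f` is fixed. -/
def fixedMod : Subgroup D := f.range.comap (diffHom t)

variable {s t n f}

theorem map_diff_apply (hf : ∀ x, f (s x) = t (f x)) (x : M) :
    diffHom t (f x) = f (diffHom s x) := by
  rw [diffHom_apply, diffHom_apply, map_div, hf]

/-- **The count of the fixed classes.** -/
theorem relIndex_fixedMod (hs : ∀ x, s^[n] x = x) (ht : ∀ y, t^[n] y = y)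
    (hf : ∀ x, f (s x) = t (f x)) (h90 : (normHom s n).ker ≤ (diffHom s).range)
    (hD : (normHom t n).ker ≤ (diffHom t).range) :
    f.range.relIndex (fixedMod t f) * hOne s n f.ker =
      (f.ker.map (normHom s n)).relIndex (f.ker ⊓ (normHom s n).range) *
        ((diffHom s).ker.map f).relIndex (diffHom t).ker := by
  set E := f.ker
  set Ds := diffHom s
  set Dt := diffHom t
  set N := normHom s n
  have hDN : Ds.range = N.ker := le_antisymm (by
    rintro _ ⟨x, rfl⟩
    show N (diffHom s x) = 1
    rw [diffHom_apply, map_div, norm_apply_s hs, div_self']) h90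
  have hDNt : Dt.range = (normHom t n).ker := le_antisymm (by
    rintro _ ⟨x, rfl⟩
    show normHom t n (diffHom t x) = 1
    rw [diffHom_apply, map_div, norm_apply_s ht, div_self']) hD
  have hfN : ∀ x, normHom t n (f x) = f (N x) := fun x => by
    have hit : ∀ i : ℕ, t^[i] (f x) = f (s^[i] x) := fun i => by
      induction i with
      | zero => rfl
      | succ i ih => rw [Function.iterate_succ_apply', Function.iterate_succ_apply', ih, hf]
    simp only [N, ArtinRec.normHom_apply, map_prod, hit]
  have hPA : f.range ≤ fixedMod t f := by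
    rintro _ ⟨x, rfl⟩
    exact ⟨Ds x, (map_diff_apply hf x).symm⟩
  have h0 := relIndex_image_ker Dt hPA
  -- the image under `t x / x`
  have himA : (fixedMod t f).map Dt = (E.comap N).map f := by
    rw [fixedMod, Subgroup.map_comap_eq, hDNt]
    ext y
    constructor
    · rintro ⟨hy, x, rfl⟩
      refine ⟨x, ?_, rfl⟩
      show f (N x) = 1
      rw [← hfN]
      exact hy
    · rintro ⟨x, hx, rfl⟩
      refine ⟨?_, x, rfl⟩
      show normHom t n (f x) = 1
      rw [hfN]
      exact hx
  have himP : f.range.map Dt = Ds.range.map f := by
    rw [MonoidHom.map_range, MonoidHom.map_range]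
    exact congrArg MonoidHom.range (MonoidHom.ext fun x => map_diff_apply hf x)
  have hEN : E ≤ E.comap N := fun x hx => by
    show f (N x) = 1
    rw [← hfN, show f x = 1 from hx, map_one]
  have h1 : (f.range.map Dt).relIndex ((fixedMod t f).map Dt) =
      (E.map N).relIndex (E ⊓ N.range) := by
    have hN : N.ker ≤ E.comap N := fun x hx => by
      show f (N x) = 1
      rw [show N x = 1 from hx, map_one]
    rw [himA, himP, Subgroup.relIndex_map_map, sup_eq_left.2 hEN, hDN, inf_comm E,
      ← Subgroup.map_comap_eq, Subgroup.relIndex_map_map, sup_eq_left.2 hN, sup_comm]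
  -- the fixed elements
  have hkA : fixedMod t f ⊓ Dt.ker = Dt.ker := inf_eq_right.2 fun y hy => by
    show Dt y ∈ f.range
    rw [show Dt y = 1 from hy]
    exact one_mem _
  have hkP : f.range ⊓ Dt.ker = (E.comap Ds).map f := by
    ext y
    constructor
    · rintro ⟨⟨x, rfl⟩, hy⟩
      refine ⟨x, ?_, rfl⟩
      show f (Ds x) = 1
      rw [← map_diff_apply hf x]
      exact hy
    · rintro ⟨x, hx, rfl⟩
      exact ⟨⟨x, rfl⟩, (map_diff_apply hf x).trans hx⟩
  have hEs : IsStable s E := fun x hx => by
    show f (s x) = 1
    rw [hf, show f x = 1 from hx, map_one]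
  have hkK : Ds.ker ≤ E.comap Ds := fun x hx => by
    show f (Ds x) = 1
    rw [show Ds x = 1 from hx, map_one]
  have hED : E ≤ E.comap Ds := fun x hx => hEs.diff_mem hx
  have h2 : (Ds.ker.map f).relIndex ((E.comap Ds).map f) = hOne s n E := by
    rw [Subgroup.relIndex_map_map, sup_eq_left.2 hED,
      hOne, ← hDN, inf_comm E, ← Subgroup.map_comap_eq, Subgroup.relIndex_map_map,
      sup_eq_left.2 hkK, sup_comm]
  have h3 := Subgroup.relIndex_mul_relIndex (Ds.ker.map f) ((E.comap Ds).map f) Dt.ker
    (Subgroup.map_mono hkK) (hkP ▸ inf_le_right)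
  rw [h1, hkA, hkP] at h0
  rw [← h0, ← h3, h2]
  ring

end FA.AmbClass
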