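import Fermat.Agent.AmbiguousClass.Main

/-!
# Iwasawa's criterion and cyclic fields of odd prime degree

If at most one place ramifies in a cyclic extension of `p`-power degree and `p` does not divide the
class number below, then it does not divide the one above. A cyclic field of odd prime degree `p`
with `t` prime divisors of the discriminant has exactly `p ^ (t - 1)` classes fixed by Galois.
-/

set_option autoImplicit false
set_option linter.unusedSectionVars false
set_option linter.style.haveILetI false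

noncomputable section

open NumberField NumberField.InfinitePlace IsDedekindDomain
open scoped Pointwise nonZeroDivisors

namespace FA.AmbClass

open FA.ArtinRec

variable {K L : Type*} [Field K] [NumberField K] [Field L] [NumberField L] [Algebra K L]
  [IsGalois K L]

theorem exists_generator [IsCyclic (L ≃ₐ[K] L)] :
    ∃ σ : L ≃ₐ[K] L, ∀ g, g ∈ Subgroup.zpowers σ := IsCyclic.exists_generator

theorem prod_infIdx [IsCyclic (L ≃ₐ[K] L)] :
    ∏ v : InfinitePlace K, infIdx L v =
      2 ^ Nat.card {v : InfinitePlace K // ¬ v.IsUnramifiedIn L} := by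
  classical
  obtain ⟨σ, hσ⟩ := exists_generator (K := K) (L := L)
  have h : ∀ v : InfinitePlace K, infIdx L v = if v.IsUnramifiedIn L then 1 else 2 := fun v => by
    obtain ⟨w, rfl⟩ := InfinitePlace.comap_surjective (K := L) v
    rw [infIdx_eq_card hσ, card_stabilizer, if_congr isUnramifiedIn_comap rfl rfl]
  rw [Finset.prod_congr rfl fun v _ => h v, Finset.prod_ite, Finset.prod_const_one, one_mul,
    Finset.prod_const, Nat.card_eq_fintype_card, Fintype.card_subtype]

theorem eBase_dvd (v : HeightOneSpectrum (𝓞 K)) : eBase L v ∣ Module.finrank K L := by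
  obtain ⟨Q, rfl⟩ := exists_belowP K L v
  haveI : Q.asIdeal.LiesOver (belowP K Q).asIdeal := ⟨rfl⟩
  haveI := (belowP K Q).isMaximal
  haveI : Finite (𝓞 K ⧸ (belowP K Q).asIdeal) :=
    Ideal.finiteQuotientOfFreeOfNeBot _ (belowP K Q).ne_bot
  rw [eBase, ← Ideal.card_inertia_eq_ramificationIdxIn (G := L ≃ₐ[K] L) (belowP K Q).asIdeal
    Q.asIdeal, ← IsGalois.card_aut_eq_finrank]
  exact Subgroup.card_subgroup_dvd_card _

/-- The classes fixed by the Galois group. -/
def fixedClasses (K L : Type*) [Field K] [NumberField K] [Field L] [NumberField L] [Algebra K L] :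
    Subgroup (ClassGroup (𝓞 L)) where
  carrier := {c | ∀ g : L ≃ₐ[K] L, galCl g c = c}
  one_mem' g := map_one _
  mul_mem' ha hb g := by rw [map_mul, ha g, hb g]
  inv_mem' ha g := by rw [map_inv, ha g]

variable [IsCyclic (L ≃ₐ[K] L)]

/-- A class number divisible by `p` gives a fixed class of order `p`. -/
theorem dvd_card_fixed {p k : ℕ} [Fact p.Prime] (hdeg : Module.finrank K L = p ^ k)
    (h : p ∣ classNumber L) :
    p ∣ Nat.card {c : ClassGroup (𝓞 L) // ∀ g : L ≃ₐ[K] L, galCl g c = c} := by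
  classical
  have hG : IsPGroup p (L ≃ₐ[K] L) := IsPGroup.of_card (by rw [IsGalois.card_aut_eq_finrank, hdeg])
  have hmul : ∀ (g g' : L ≃ₐ[K] L) c, galCl (g * g') c = galCl g (galCl g' c) := fun g g' c => by
    obtain ⟨d, rfl⟩ := surjective_cls c
    simp only [← cls_galDiv, galDiv_mul]
  have hone : ∀ c : ClassGroup (𝓞 L), galCl (1 : L ≃ₐ[K] L) c = c := fun c => by
    obtain ⟨d, rfl⟩ := surjective_cls c
    rw [← cls_galDiv]
    exact congrArg cls ((galDiv_iterate (1 : L ≃ₐ[K] L) 0 d).symm.trans rfl)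
  let S := {c : ClassGroup (𝓞 L) // c ^ p = 1}
  let _ : MulAction (L ≃ₐ[K] L) S :=
    { smul := fun g c => ⟨galCl g c.1, by rw [← map_pow, c.2, map_one]⟩
      one_smul := fun c => Subtype.ext (hone c.1)
      mul_smul := fun g g' c => Subtype.ext (hmul g g' c.1) }
  have hS : p ∣ Nat.card S := by
    obtain ⟨x, hx⟩ := exists_prime_orderOf_dvd_card p (G := ClassGroup (𝓞 L)) h
    have hxm : x ∈ (powMonoidHom p : ClassGroup (𝓞 L) →* ClassGroup (𝓞 L)).ker := by
      show x ^ p = 1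
      rw [← hx, pow_orderOf_eq_one]
    have h2 := Subgroup.card_dvd_of_le (Subgroup.zpowers_le.mpr hxm)
    rwa [Nat.card_zpowers, hx] at h2
  obtain ⟨⟨c, hc⟩, hfix, hne⟩ := hG.exists_fixed_point_of_prime_dvd_card_of_fixed_point S hS
    (a := ⟨1, one_pow p⟩) (fun g => Subtype.ext (map_one (galCl g)))
  have hc1 : c ≠ 1 := fun e => hne (Subtype.ext e.symm)
  have hmem : c ∈ fixedClasses K L := fun g => congrArg Subtype.val (hfix g)
  have h2 := Subgroup.card_dvd_of_le (Subgroup.zpowers_le.mpr hmem)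
  rwa [Nat.card_zpowers, orderOf_eq_prime hc hc1] at h2

/-- **Iwasawa**: at most one ramified place. -/
theorem not_dvd_classNumber {p k : ℕ} [Fact p.Prime] (hdeg : Module.finrank K L = p ^ k)
    (hram : Nat.card {v : HeightOneSpectrum (𝓞 K) // eBase L v ≠ 1} +
      Nat.card {v : InfinitePlace K // ¬ v.IsUnramifiedIn L} ≤ 1)
    (hK : ¬ p ∣ classNumber K) : ¬ p ∣ classNumber L := by
  classical
  intro hdvd
  obtain ⟨σ, hσ⟩ := exists_generator (K := K) (L := L)
  have hF := card_fixed hσ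
  rw [prod_infIdx] at hF
  set R := (finite_eBase_ne_one K L).toFinset with hRdef
  have hRc : Nat.card {v : HeightOneSpectrum (𝓞 K) // eBase L v ≠ 1} = R.card :=
    (Nat.card_congr (Equiv.subtypeEquivRight fun v => by simp [hRdef])).trans
      (Nat.card_eq_finsetCard R)
  rw [hRc] at hram
  have hP : (∏ᶠ v : HeightOneSpectrum (𝓞 K), eBase L v) = ∏ v ∈ R, eBase L v :=
    finprod_eq_prod_of_mulSupport_subset _ fun v hv => Finset.mem_coe.2 (by simpa [hRdef] using hv)
  rw [hP] at hF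
  have hX : (∏ v ∈ R, eBase L v) * 2 ^ Nat.card {v : InfinitePlace K // ¬ v.IsUnramifiedIn L} ∣
      Module.finrank K L := by
    rcases Nat.eq_zero_or_pos R.card with hR0 | hR0
    · rw [Finset.card_eq_zero.1 hR0, Finset.prod_empty, one_mul]
      rcases Nat.le_one_iff_eq_zero_or_eq_one.1 (le_trans (Nat.le_add_left _ _) hram) with h0 | h0
      · rw [h0, pow_zero]; exact one_dvd _
      · obtain ⟨⟨v, hv⟩⟩ := (Nat.card_pos_iff.1 (h0 ▸ one_pos)).1
        rw [h0, pow_one, ← even_iff_two_dvd]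
        exact even_finrank_of_not_isUnramifiedIn hv
    · obtain ⟨v, hv⟩ := Finset.card_eq_one.1 (show R.card = 1 by omega)
      rw [hv, Finset.prod_singleton, show Nat.card _ = 0 by omega, pow_zero, mul_one]
      exact eBase_dvd v
  obtain ⟨m, hm⟩ := hX
  have h1 := dvd_card_fixed hdeg hdvd
  set a := Nat.card {c : ClassGroup (𝓞 L) // ∀ g : L ≃ₐ[K] L, galCl g c = c}
  set i := ((Units.map (Algebra.norm K : L →* K)).range.comap (intUnits (F := K))).index
  refine hK (dvd_trans (dvd_mul_of_dvd_left (dvd_mul_of_dvd_left h1 m) i)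
    (dvd_of_eq (Nat.eq_of_mul_eq_mul_right (?_ : 0 < (∏ v ∈ R, eBase L v) *
      2 ^ Nat.card {v : InfinitePlace K // ¬ v.IsUnramifiedIn L}) ?_)))
  · exact Nat.mul_pos (Finset.prod_pos fun v _ => eBase_pos v) (pow_pos two_pos _)
  · rw [← mul_assoc (classNumber K), ← hF, hm]
    ring

end FA.AmbClass

namespace FA.AmbClass

open FA.ArtinRec

variable {L : Type*} [Field L] [NumberField L]

theorem eBase_ne_one_iff [IsGalois ℚ L] (v : HeightOneSpectrum (𝓞 ℚ)) :
    eBase L v ≠ 1 ↔ (Rat.HeightOneSpectrum.natGenerator v : ℤ) ∣ discr L := by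
  set q := Rat.HeightOneSpectrum.natGenerator v with hq
  have hqp : q.Prime := Rat.HeightOneSpectrum.prime_natGenerator v
  have hsurj : Function.Surjective (algebraMap ℤ (𝓞 ℚ)) := fun x =>
    ⟨Rat.ringOfIntegersEquiv x, Rat.ringOfIntegersEquiv.injective (by simp)⟩
  have : Algebra.FormallyUnramified ℤ (𝓞 ℚ) :=
    Algebra.FormallyUnramified.of_surjective (Algebra.ofId ℤ (𝓞 ℚ)) hsurj
  have hmem : ∀ n : ℕ, (n : 𝓞 ℚ) ∈ v.asIdeal ↔ q ∣ n := fun n => by
    rw [hq, Rat.HeightOneSpectrum.natGenerator_dvd_iff,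
      ← map_natCast (Rat.IsIntegralClosure.intEquiv (𝓞 ℚ)) n,
      Ideal.apply_mem_of_equiv_iff]
  have hkey : ∀ Q : HeightOneSpectrum (𝓞 L), belowP ℚ Q = v →
      (Algebra.IsUnramifiedAt ℤ Q.asIdeal ↔ eBase L v = 1) := fun Q hQ => by
    subst hQ
    haveI : Q.asIdeal.LiesOver (belowP ℚ Q).asIdeal := ⟨rfl⟩
    haveI := (belowP ℚ Q).isMaximal
    rw [← Ideal.ramificationIdx_eq_one_iff, Ideal.ramificationIdx_tower (belowP ℚ Q).asIdeal Q.asIdeal,
      Ideal.ramificationIdx_eq_one, one_mul, eBase,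
      Ideal.ramificationIdxIn_eq_ramificationIdx _ Q.asIdeal (L ≃ₐ[ℚ] L)]
  rw [← not_iff_not, not_not, not_dvd_discr_iff_forall_mem L (𝓞 L)
    (Nat.prime_iff_prime_int.1 hqp)]
  obtain ⟨Q₀, hQ₀⟩ := exists_belowP ℚ L v
  constructor
  · intro he P hP hqP
    have hP0 : P ≠ ⊥ := fun h => hqp.ne_zero (by
      rw [h, Ideal.mem_bot] at hqP
      exact_mod_cast hqP)
    refine (hkey ⟨P, hP, hP0⟩ ?_).2 he
    refine HeightOneSpectrum.ext ((v.isMaximal.eq_of_le (hP.under (𝓞 ℚ)).ne_top fun x hx => ?_).symm)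
    obtain ⟨n, rfl⟩ := hsurj x
    have hx' : (n.natAbs : 𝓞 ℚ) ∈ v.asIdeal := by
      rcases Int.natAbs_eq n with h | h <;> rw [h] at hx <;> simpa using hx
    obtain ⟨m, hm⟩ := Int.natCast_dvd.2 ((hmem _).1 hx')
    show algebraMap (𝓞 ℚ) (𝓞 L) (algebraMap ℤ (𝓞 ℚ) n) ∈ P
    rw [hm, map_mul, map_mul]
    exact P.mul_mem_right _ (by simpa using hqP)
  · intro h
    refine (hkey Q₀ hQ₀).1 (h Q₀.asIdeal Q₀.isPrime ?_)
    have h1 : (q : 𝓞 ℚ) ∈ (belowP ℚ Q₀).asIdeal := hQ₀ ▸ (hmem q).2 dvd_rfl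
    simpa using h1

/-- **Cyclic fields of odd prime degree.** -/
theorem card_fixed_rat {p : ℕ} [Fact p.Prime] [IsGalois ℚ L] [IsCyclic (L ≃ₐ[ℚ] L)]
    (hp : Odd p) (hdeg : Module.finrank ℚ L = p) :
    Nat.card {c : ClassGroup (𝓞 L) // ∀ g : L ≃ₐ[ℚ] L, galCl g c = c} * p =
      p ^ Nat.card {q : Nat.Primes // ((q : ℕ) : ℤ) ∣ discr L} := by
  classical
  obtain ⟨σ, hσ⟩ := exists_generator (K := ℚ) (L := L)
  have hF := card_fixed hσ
  have hi : ((Units.map (Algebra.norm ℚ : L →* ℚ)).range.comap (intUnits (F := ℚ))).index = 1 := by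
    rw [Subgroup.index_eq_one, eq_top_iff]
    intro u _
    rcases Int.units_eq_one_or (Units.map Rat.ringOfIntegersEquiv.toMonoidHom u) with h | h
    · have hu : u = 1 := Units.map_injective Rat.ringOfIntegersEquiv.injective (h.trans (map_one _).symm)
      rw [hu]; exact one_mem _
    · have hu : u = -1 := Units.map_injective Rat.ringOfIntegersEquiv.injective (h.trans
        (Units.ext (by simp)))
      refine ⟨-1, Units.ext ?_⟩
      rw [hu]
      show Algebra.norm ℚ ((-1 : Lˣ) : L) = (((-1 : (𝓞 ℚ)ˣ) : 𝓞 ℚ) : ℚ)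
      rw [Units.val_neg, Units.val_one, Units.val_neg, Units.val_one,
        show (-1 : L) = algebraMap ℚ L (-1) by simp, Algebra.norm_algebraMap, hdeg, hp.neg_one_pow]
      simp
  have hinf : Nat.card {v : InfinitePlace ℚ // ¬ v.IsUnramifiedIn L} = 0 := by
    have := IsUnramifiedAtInfinitePlaces_of_odd_finrank (k := ℚ) (K := L) (hdeg ▸ hp)
    rw [Nat.card_eq_zero]
    exact Or.inl ⟨fun v => v.2 (InfinitePlace.isUnramifiedIn L v.1)⟩
  set R := (finite_eBase_ne_one ℚ L).toFinset with hRdef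
  have hP : (∏ᶠ v : HeightOneSpectrum (𝓞 ℚ), eBase L v) = ∏ v ∈ R, eBase L v :=
    finprod_eq_prod_of_mulSupport_subset _ fun v hv => Finset.mem_coe.2 (by simpa [hRdef] using hv)
  have hRp : ∀ v ∈ R, eBase L v = p := fun v hv =>
    ((Nat.dvd_prime Fact.out).1 (hdeg ▸ eBase_dvd v)).resolve_left (by simpa [hRdef] using hv)
  have ht : R.card = Nat.card {q : Nat.Primes // ((q : ℕ) : ℤ) ∣ discr L} := by
    rw [← Nat.card_eq_finsetCard]
    refine Nat.card_congr (Equiv.subtypeEquiv Rat.HeightOneSpectrum.primesEquiv fun v => ?_)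
    rw [hRdef, Set.Finite.mem_toFinset]
    exact eBase_ne_one_iff v
  rw [hi, prod_infIdx, hinf, Rat.classNumber_eq, hP, Finset.prod_congr rfl hRp,
    Finset.prod_const, hdeg, ht] at hF
  simpa using hF

end FA.AmbClass
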