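import Fermat.Agent.ExistenceTheorem.RayMaps
import Fermat.Prelude.Def_ClassGroup_GaloisAction

/-!
# Divisors and classes

The divisors of a number field are the finitely supported integer functions on the primes; the
classes are the divisors modulo those of the nonzero elements, compatibly with a Galois action.
-/

set_option autoImplicit false
set_option linter.unusedSectionVars false
set_option linter.style.haveILetI false

noncomputable section

open NumberField IsDedekindDomain
open scoped Pointwise nonZeroDivisors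

namespace FA.AmbClass

open FA.ArtinRec

section one

variable {F : Type*} [Field F] [NumberField F]

/-- The divisors. -/
abbrev Dvs (F : Type*) [Field F] [NumberField F] :=
  Multiplicative (HeightOneSpectrum (𝓞 F) →₀ ℤ)

/-- The divisor of an element. -/
def ordHom : Fˣ →* Dvs F :=
  MonoidHom.mk' (fun x => Multiplicative.ofAdd
    (Finsupp.ofSupportFinite (fun v => ord v x) (finite_ord_ne_zero x)))
    fun x y => Multiplicative.toAdd.injective (Finsupp.ext fun v => by
      simp [Finsupp.ofSupportFinite_coe, ord_mul])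

@[simp] theorem toAdd_ordHom (x : Fˣ) (v : HeightOneSpectrum (𝓞 F)) :
    Multiplicative.toAdd (ordHom x) v = ord v x := rfl

theorem ker_ordHom : (ordHom (F := F)).ker = tUnit ∅ := by
  ext x
  rw [MonoidHom.mem_ker, mem_tUnit]
  exact ⟨fun h v _ => DFunLike.congr_fun (congrArg Multiplicative.toAdd h) v,
    fun h => Multiplicative.toAdd.injective (Finsupp.ext fun v => h v (Finset.notMem_empty v))⟩

/-- A prime as a class. -/
def primeCls (v : HeightOneSpectrum (𝓞 F)) : ClassGroup (𝓞 F) :=
  ClassGroup.mk0 ⟨v.asIdeal, mem_nonZeroDivisors_iff_ne_zero.mpr v.ne_bot⟩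

/-- The class of a divisor. -/
def cls : Dvs F →* ClassGroup (𝓞 F) :=
  AddMonoidHom.toMultiplicativeLeft (Finsupp.liftAddHom fun v =>
    zmultiplesHom (Additive (ClassGroup (𝓞 F))) (Additive.ofMul (primeCls v)))

theorem cls_single (v : HeightOneSpectrum (𝓞 F)) (k : ℤ) :
    cls (Multiplicative.ofAdd (Finsupp.single v k)) = primeCls v ^ k := by
  simp [cls]

/-- The divisor of an ideal. -/
def divI (I : (Ideal (𝓞 F))⁰) : Dvs F :=
  Multiplicative.ofAdd (Finsupp.ofSupportFinite (fun v => (ordI v I.1 : ℤ))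
    ((finite_ordI_ne_zero (nonZeroDivisors.coe_ne_zero I)).subset fun v hv h => hv (by
      simp [h])))

@[simp] theorem toAdd_divI (I : (Ideal (𝓞 F))⁰) (v : HeightOneSpectrum (𝓞 F)) :
    Multiplicative.toAdd (divI I) v = ordI v I.1 := rfl

theorem cls_divI (I : (Ideal (𝓞 F))⁰) : cls (divI I) = ClassGroup.mk0 I := by
  classical
  set S := (finite_ordI_ne_zero (nonZeroDivisors.coe_ne_zero I)).toFinset
  have hP : ∀ v : HeightOneSpectrum (𝓞 F), v.asIdeal ∈ (Ideal (𝓞 F))⁰ := fun v =>
    mem_nonZeroDivisors_iff_ne_zero.mpr v.ne_bot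
  have hI : I = ∏ v ∈ S, (⟨v.asIdeal, hP v⟩ : (Ideal (𝓞 F))⁰) ^ ordI v I.1 := by
    refine Subtype.ext ?_
    rw [Submonoid.coe_finsetProd]
    simp only [SubmonoidClass.coe_pow]
    refine FA.ArtinRec.ideal_eq_of_ordI (nonZeroDivisors.coe_ne_zero I)
      (Finset.prod_ne_zero_iff.2 fun v _ => pow_ne_zero _ v.ne_bot) fun v => ?_
    rw [ordI_prod v _ _ fun u _ => pow_ne_zero _ u.ne_bot]
    simp_rw [ordI_pow v (HeightOneSpectrum.ne_bot _), ordI_prime, mul_ite, mul_one, mul_zero]
    rw [Finset.sum_ite_eq]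
    split_ifs with h
    · rfl
    · exact not_not.1 fun h0 => h ((Set.Finite.mem_toFinset _).2 h0)
  have hd : divI I = ∏ v ∈ S, Multiplicative.ofAdd (Finsupp.single v (ordI v I.1 : ℤ)) := by
    refine Multiplicative.toAdd.injective (Finsupp.ext fun u => ?_)
    rw [toAdd_prod, Finsupp.finsetSum_apply, toAdd_divI]
    simp only [toAdd_ofAdd, Finsupp.single_apply]
    rw [Finset.sum_ite_eq']
    split_ifs with h
    · rfl
    · rw [not_not.1 fun h0 => h ((Set.Finite.mem_toFinset _).2 h0)]; rfl
  conv_rhs => rw [hI]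
  rw [hd, map_prod, map_prod]
  exact Finset.prod_congr rfl fun v _ => by rw [cls_single, zpow_natCast, map_pow]; rfl

theorem surjective_cls : Function.Surjective (cls (F := F)) := fun c => by
  obtain ⟨I, rfl⟩ := ClassGroup.mk0_surjective c
  exact ⟨divI I, cls_divI I⟩

theorem exists_divI_div (d : Dvs F) : ∃ I J, d = divI I / divI J := by
  have key : ∀ e : HeightOneSpectrum (𝓞 F) →₀ ℤ, ∃ I : (Ideal (𝓞 F))⁰,
      ∀ v, (ordI v I.1 : ℤ) = max (e v) 0 := fun e => by
    obtain ⟨I, hI, h⟩ := FA.ArtinRec.exists_ideal_ordI (fun v => (e v).toNat)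
      (e.finite_support.subset fun v hv h0 => hv (by simp [h0]))
    exact ⟨⟨I, mem_nonZeroDivisors_iff_ne_zero.mpr hI⟩, fun v => by rw [h]; simp⟩
  obtain ⟨I, hI⟩ := key (Multiplicative.toAdd d)
  obtain ⟨J, hJ⟩ := key (-Multiplicative.toAdd d)
  refine ⟨I, J, Multiplicative.toAdd.injective (Finsupp.ext fun v => ?_)⟩
  rw [toAdd_div, Finsupp.sub_apply, toAdd_divI, toAdd_divI, hI, hJ, Finsupp.neg_apply]
  omega

/-- **The classes are the divisors modulo those of elements.** -/
theorem ker_cls : (cls (F := F)).ker = ordHom.range := by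
  ext d
  constructor
  · intro hd
    obtain ⟨I, J, rfl⟩ := exists_divI_div d
    rw [MonoidHom.mem_ker, map_div, cls_divI, cls_divI, div_eq_one] at hd
    obtain ⟨a, b, ha, hb, h⟩ := ClassGroup.mk0_eq_mk0_iff.1 hd
    refine ⟨intU b hb / intU a ha, Multiplicative.toAdd.injective (Finsupp.ext fun v => ?_)⟩
    have h' := congrArg (ordI v) h
    rw [ordI_mul v (by simpa) (nonZeroDivisors.coe_ne_zero I), ordI_mul v (by simpa)
      (nonZeroDivisors.coe_ne_zero J)] at h'
    rw [toAdd_div, Finsupp.sub_apply, toAdd_ordHom, toAdd_divI, toAdd_divI, ord_div,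
      ord_intU_eq_ordI, ord_intU_eq_ordI]
    omega
  · rintro ⟨x, rfl⟩
    obtain ⟨a, b, ha, hb, rfl⟩ := exists_intU_div x
    have key : ∀ (r : 𝓞 F) (hr : r ≠ 0), cls (ordHom (intU r hr)) = 1 := fun r hr => by
      have he : ordHom (intU r hr) = divI ⟨Ideal.span {r},
          mem_nonZeroDivisors_iff_ne_zero.mpr (by simpa using hr)⟩ :=
        Multiplicative.toAdd.injective (Finsupp.ext fun v => ord_intU_eq_ordI v hr)
      rw [he, cls_divI, ClassGroup.mk0_eq_one_iff]
      exact ⟨⟨r, rfl⟩⟩
    rw [MonoidHom.mem_ker, map_div, map_div, key, key, div_one]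

theorem index_range_ordHom : (ordHom (F := F)).range.index = classNumber F := by
  rw [← ker_cls, Subgroup.index_ker, MonoidHom.range_eq_top.2 surjective_cls,
    Nat.card_congr Subgroup.topEquiv.toEquiv, classNumber, Nat.card_eq_fintype_card]

end one

section galois

variable {K L : Type*} [Field K] [NumberField K] [Field L] [NumberField L] [Algebra K L]

/-- The action on divisors. -/
def galDiv (g : L ≃ₐ[K] L) : Dvs L →* Dvs L :=
  AddMonoidHom.toMultiplicative (Finsupp.mapDomain.addMonoidHom (galPrime g))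

theorem galPrime_injective (g : L ≃ₐ[K] L) : Function.Injective (galPrime g) := fun P Q h => by
  have h' := congrArg (galPrime g⁻¹) h
  rwa [← galPrime_mul, ← galPrime_mul, inv_mul_cancel, galPrime_one, galPrime_one] at h'

theorem galDiv_apply (g : L ≃ₐ[K] L) (d : Dvs L) (Q : HeightOneSpectrum (𝓞 L)) :
    Multiplicative.toAdd (galDiv g d) (galPrime g Q) = Multiplicative.toAdd d Q :=
  Finsupp.mapDomain_apply (galPrime_injective g) _ Q

theorem galDiv_single (g : L ≃ₐ[K] L) (Q : HeightOneSpectrum (𝓞 L)) (k : ℤ) :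
    galDiv g (Multiplicative.ofAdd (Finsupp.single Q k)) =
      Multiplicative.ofAdd (Finsupp.single (galPrime g Q) k) :=
  congrArg Multiplicative.ofAdd Finsupp.mapDomain_single

theorem galDiv_iterate (g : L ≃ₐ[K] L) (i : ℕ) (d : Dvs L) :
    (galDiv g)^[i] d = galDiv (g ^ i) d := by
  have h1 : ∀ a b : L ≃ₐ[K] L, ∀ d, galDiv a (galDiv b d) = galDiv (a * b) d := fun a b d => by
    refine Multiplicative.toAdd.injective ?_
    show Finsupp.mapDomain _ (Finsupp.mapDomain _ _) = Finsupp.mapDomain _ _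
    rw [← Finsupp.mapDomain_comp]
    exact congrArg (fun φ => Finsupp.mapDomain φ _) (funext fun Q => (galPrime_mul a b Q).symm)
  induction i with
  | zero =>
    refine Multiplicative.toAdd.injective ?_
    show _ = Finsupp.mapDomain _ _
    rw [pow_zero, show (galPrime (1 : L ≃ₐ[K] L)) = id from funext galPrime_one,
      Finsupp.mapDomain_id]
    rfl
  | succ i ih => rw [Function.iterate_succ_apply', ih, h1, pow_succ']

theorem galDiv_ordHom (g : L ≃ₐ[K] L) (x : Lˣ) : ordHom (galU g x) = galDiv g (ordHom x) := by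
  refine Multiplicative.toAdd.injective (Finsupp.ext fun Q => ?_)
  obtain ⟨P, rfl⟩ : ∃ P, galPrime g P = Q :=
    ⟨galPrime g⁻¹ Q, by rw [← galPrime_mul, mul_inv_cancel, galPrime_one]⟩
  rw [galDiv_apply, toAdd_ordHom, toAdd_ordHom, ord_galU]

/-- The action on classes. -/
def galCl (g : L ≃ₐ[K] L) : ClassGroup (𝓞 L) →* ClassGroup (𝓞 L) :=
  (ClassGroup.mulEquiv (MulSemiringAction.toRingEquiv (L ≃ₐ[K] L) (𝓞 L) g)).toMonoidHom

theorem galCl_primeCls (g : L ≃ₐ[K] L) (Q : HeightOneSpectrum (𝓞 L)) :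
    galCl g (primeCls Q) = primeCls (galPrime g Q) := by
  show ClassGroup.mulEquiv _ (ClassGroup.mk0 _) = _
  rw [ClassGroup.mulEquiv_mk0]
  exact congrArg ClassGroup.mk0 (Subtype.ext rfl)

theorem cls_galDiv (g : L ≃ₐ[K] L) (d : Dvs L) : cls (galDiv g d) = galCl g (cls d) := by
  rw [← ofAdd_toAdd d]
  induction Multiplicative.toAdd d using Finsupp.induction_linear with
  | zero => simp
  | add a b ha hb => rw [ofAdd_add, map_mul, map_mul, map_mul, map_mul, ha, hb]
  | single Q k => rw [galDiv_single, cls_single, cls_single, map_zpow, galCl_primeCls]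

end galois

end FA.AmbClass
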