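import Fermat.Agent.AmbiguousClass.Applications
import Fermat.Agent.ClassField.Artin

/-!
# Cyclic fields of prime degree with many ramified primes

For a prime `p` and a set `S` of primes congruent to `1` modulo `p` the product of characters of
order `p` modulo the primes of `S` cuts out a cyclic field of degree `p` ramified at each of them.
-/

set_option autoImplicit false
set_option linter.unusedSectionVars false
set_option linter.style.haveILetI false

noncomputable section

open NumberField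

namespace FA.AmbClass

open FA.ClassField

theorem exists_char_order {p q : ℕ} [Fact p.Prime] (hq : q.Prime) (h : p ∣ q - 1) :
    ∃ (ψ : (ZMod q)ˣ →* Multiplicative (ZMod p)) (g : (ZMod q)ˣ),
      ψ g = Multiplicative.ofAdd 1 := by
  haveI := Fact.mk hq
  obtain ⟨g, hg⟩ := IsCyclic.exists_generator (α := (ZMod q)ˣ)
  have ho : orderOf (Multiplicative.ofAdd (1 : ZMod p)) ∣ orderOf g := by
    rw [orderOf_ofAdd_eq_addOrderOf, ZMod.addOrderOf_one,
      orderOf_eq_card_of_forall_mem_zpowers hg, Nat.card_eq_fintype_card, ZMod.card_units]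
    exact h
  exact ⟨monoidHomOfForallMemZpowers hg ho, g, monoidHomOfForallMemZpowers_apply_gen hg ho⟩

/-- **A cyclic field of degree `p` ramified at every prime of `S`.** -/
theorem exists_field_ramified {p : ℕ} [hp : Fact p.Prime] (S : Finset ℕ)
    (hS : ∀ q ∈ S, q.Prime ∧ p ∣ q - 1) (hne : S.Nonempty) :
    ∃ (L : Type) (_ : Field L) (_ : NumberField L),
      IsGalois ℚ L ∧ IsCyclic (L ≃ₐ[ℚ] L) ∧ Module.finrank ℚ L = p ∧
        ∀ q ∈ S, (q : ℤ) ∣ discr L := by
  classical
  set N := ∏ q ∈ S, q with hN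
  haveI : NeZero N := ⟨Finset.prod_ne_zero_iff.2 fun q hq => (hS q hq).1.ne_zero⟩
  choose ψ g hψ using fun q : S => exists_char_order (p := p) (hS q.1 q.2).1 (hS q.1 q.2).2
  let χ : (ZMod N)ˣ →* Multiplicative (ZMod p) :=
    ∏ q : S, (ψ q).comp (ZMod.unitsMap (Finset.dvd_prod_of_mem (fun q => q) q.2))
  -- an element trivial away from one prime
  have hloc : ∀ q : S, ∀ hm : N / q.1 ∣ N, ∃ u ∈ (ZMod.unitsMap hm).ker,
      χ u = Multiplicative.ofAdd 1 := by
    intro q hm
    have hq := (hS q.1 q.2).1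
    haveI := Fact.mk hq
    have hM : N / q.1 = ∏ r ∈ S.erase q.1, r := by
      rw [hN, ← Finset.mul_prod_erase S (fun r => r) q.2, Nat.mul_div_cancel_left _ hq.pos]
    have hcop : Nat.Coprime q.1 (N / q.1) := by
      rw [hM]
      exact Nat.Coprime.prod_right fun r hr => (Nat.coprime_primes hq
        (hS r (Finset.mem_of_mem_erase hr)).1).2 (Finset.ne_of_mem_erase hr).symm
    obtain ⟨c, hc1, hc2⟩ := Nat.chineseRemainder hcop ((g q : ZMod q.1)).val 1
    have hcq : (c : ZMod q.1) = (g q : ZMod q.1) := by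
      rw [(ZMod.natCast_eq_natCast_iff _ _ _).2 hc1, ZMod.natCast_zmod_val]
    have hco : c.Coprime N := by
      refine Nat.Coprime.prod_right fun r hr => ?_
      rcases eq_or_ne r q.1 with rfl | hrq
      · exact (ZMod.isUnit_iff_coprime c q.1).1 (hcq ▸ (g q).isUnit)
      · have hrM : r ∣ N / q.1 := hM ▸ Finset.dvd_prod_of_mem (fun r => r)
          (Finset.mem_erase.2 ⟨hrq, hr⟩)
        haveI := Fact.mk (hS r hr).1
        refine (ZMod.isUnit_iff_coprime c r).1 ?_
        rw [(ZMod.natCast_eq_natCast_iff _ _ _).2 (hc2.of_dvd hrM), Nat.cast_one]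
        exact isUnit_one
    refine ⟨ZMod.unitOfCoprime c hco, ?_, ?_⟩
    · rw [MonoidHom.mem_ker]
      refine Units.ext ?_
      simp only [ZMod.unitsMap_val, ZMod.coe_unitOfCoprime, ZMod.cast_natCast hm, Units.val_one]
      rw [(ZMod.natCast_eq_natCast_iff _ _ _).2 hc2, Nat.cast_one]
    · simp only [χ, MonoidHom.finsetProd_apply, MonoidHom.comp_apply]
      rw [Finset.prod_eq_single q]
      · rw [show ZMod.unitsMap _ (ZMod.unitOfCoprime c hco) = g q from Units.ext ?_, hψ]
        simp only [ZMod.unitsMap_val, ZMod.coe_unitOfCoprime]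
        rw [ZMod.cast_natCast (Finset.dvd_prod_of_mem (fun q => q) q.2), hcq]
      · intro r _ hr
        have hrq : r.1 ≠ q.1 := fun h => hr (Subtype.ext h)
        rw [show ZMod.unitsMap _ (ZMod.unitOfCoprime c hco) = 1 from Units.ext ?_, map_one]
        simp only [ZMod.unitsMap_val, ZMod.coe_unitOfCoprime, Units.val_one]
        have hrM : r.1 ∣ N / q.1 := hM ▸ Finset.dvd_prod_of_mem (fun r => r)
          (Finset.mem_erase.2 ⟨hrq, r.2⟩)
        rw [ZMod.cast_natCast (Finset.dvd_prod_of_mem (fun q => q) r.2),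
          (ZMod.natCast_eq_natCast_iff _ _ _).2 (hc2.of_dvd hrM), Nat.cast_one]
      · exact fun h => absurd (Finset.mem_univ q) h
  -- the field
  haveI : NeZero (N : ℚ) := ⟨Nat.cast_ne_zero.mpr (NeZero.ne N)⟩
  haveI : IsCyclotomicExtension {N} ℚ (CyclotomicField N ℚ) :=
    CyclotomicField.isCyclotomicExtension N ℚ
  haveI : IsAbelianGalois ℚ (CyclotomicField N ℚ) :=
    IsCyclotomicExtension.isAbelianGalois {N} ℚ (CyclotomicField N ℚ)
  let e := IsCyclotomicExtension.Rat.galEquivZMod N (CyclotomicField N ℚ)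
  let H : Subgroup Gal(CyclotomicField N ℚ/ℚ) := χ.ker.comap e.toMonoidHom
  let F := IntermediateField.fixedField H
  haveI : IsAbelianGalois ℚ F := IsAbelianGalois.tower_bot ℚ F (CyclotomicField N ℚ)
  have hker : normGroup N (CyclotomicField N ℚ) F = χ.ker := by
    ext u
    obtain ⟨σ, rfl⟩ := e.surjective u
    rw [galEquiv_mem_normGroup, IntermediateField.fixingSubgroup_fixedField]
    rfl
  have hsurj : Function.Surjective χ := fun y => by
    obtain ⟨q, hq⟩ := hne
    obtain ⟨u, -, hu⟩ := hloc ⟨q, hq⟩ (Nat.div_dvd_of_dvd (Finset.dvd_prod_of_mem (fun q => q) hq))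
    refine ⟨u ^ (Multiplicative.toAdd y).val, ?_⟩
    rw [map_pow, hu]
    exact Multiplicative.toAdd.injective (by simp)
  have hdeg : Module.finrank ℚ F = p := by
    rw [← index_normGroup N (CyclotomicField N ℚ) F, hker, Subgroup.index_ker,
      MonoidHom.range_eq_top.2 hsurj, Nat.card_congr Subgroup.topEquiv.toEquiv,
      Nat.card_congr Multiplicative.toAdd, Nat.card_zmod]
  haveI : NumberField F := { }
  haveI : IsGalois ℚ F := inferInstance
  refine ⟨F, inferInstance, inferInstance, inferInstance,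
    isCyclic_of_prime_card (p := p) (by rw [IsGalois.card_aut_eq_finrank, hdeg]), hdeg,
    fun q hq => ?_⟩
  have hqp := (hS q hq).1
  haveI := Fact.mk hqp
  have hqN : q ∣ N := Finset.dvd_prod_of_mem (fun q => q) hq
  have hn : N = q ^ 1 * (N / q) := by rw [pow_one, Nat.mul_div_cancel' hqN]
  have hm : ¬ q ∣ N / q := by
    rw [hN, ← Finset.mul_prod_erase S (fun r => r) hq, Nat.mul_div_cancel_left _ hqp.pos,
      hqp.prime.dvd_finsetProd_iff]
    rintro ⟨r, hr, hqr⟩
    exact Finset.ne_of_mem_erase hr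
      ((Nat.prime_dvd_prime_iff_eq hqp (hS r (Finset.mem_of_mem_erase hr)).1).1 hqr).symm
  by_contra hnd
  have hle := (not_dvd_discr_iff N (CyclotomicField N ℚ) hn hm F).1 hnd
  rw [hker] at hle
  obtain ⟨u, hu, hχ⟩ := hloc ⟨q, hq⟩ (Nat.div_dvd_of_dvd hqN)
  have h1 : χ u = 1 := hle hu
  rw [hχ] at h1
  exact one_ne_zero (ofAdd_eq_one.1 h1)

end FA.AmbClass
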