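import Fermat.Agent.ArtinReciprocity.FirstInequality

/-!
# The Herbrand quotient of the units of a cyclic extension

For a cyclic extension `L/K` of degree `n` the order of the zeroth group of the units of `L` times
`n` is the order of the first times the product of the local degrees at infinity.
-/

set_option autoImplicit false
set_option linter.unusedSectionVars false
set_option linter.style.haveILetI false

noncomputable section

open NumberField NumberField.InfinitePlace IsDedekindDomain Finset
open scoped Pointwise Classical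

namespace FA.AmbClass

open FA.ArtinRec

variable {K L : Type*} [Field K] [NumberField K] [Field L] [NumberField L] [Algebra K L]
  [IsGalois K L] {σ : L ≃ₐ[K] L} (hσ : ∀ g, g ∈ Subgroup.zpowers σ)
include hσ

/-- **The Herbrand quotient of the units.** -/
theorem hFix_units :
    hFix (galU σ) (Module.finrank K L) (tUnit (∅ : Finset (HeightOneSpectrum (𝓞 L)))) *
        Module.finrank K L =
      (∏ v : InfinitePlace K, infIdx L v) *
        hOne (galU σ) (Module.finrank K L) (tUnit (∅ : Finset (HeightOneSpectrum (𝓞 L)))) ∧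
    hOne (galU σ) (Module.finrank K L) (tUnit (∅ : Finset (HeightOneSpectrum (𝓞 L)))) ≠ 0 := by
  set n := Module.finrank K L with hn
  obtain ⟨uI, huI, huIg⟩ := exists_place_units (K := K) (L := L)
  obtain ⟨uP, huP, -⟩ := exists_prime_units (K := K) (L := L)
  set T' : Finset (HeightOneSpectrum (𝓞 L)) := ∅ with hT'
  have : IsEmpty {Q // Q ∈ T'} := ⟨fun Q => Finset.notMem_empty _ Q.2⟩
  let τ : PlaceSet L T' → PlaceSet L T' := Sum.map (fun w => σ⁻¹ • w) id
  let π : PlaceSet L T' → InfinitePlace K :=
    Sum.elim (fun w => w.comap (algebraMap K L)) isEmptyElim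
  have hit : ∀ i w, τ^[i] (Sum.inl w) = Sum.inl (σ⁻¹ ^ i • w) := fun i => by
    induction i with
    | zero => simp
    | succ i ih => intro w; rw [Function.iterate_succ_apply', ih, pow_succ', mul_smul]; rfl
  have hτn : ∀ w, τ^[n] w = w := by
    rintro (w | Q)
    · rw [hit, inv_pow, hn, pow_finrank_eq_one hσ, inv_one, one_smul]
    · exact isEmptyElim Q
  set s' := (galU σ).prodMap (MonoidHom.id (Multiplicative ℤ))
  set ψ := latHom uI uP T'
  have hcomm : ∀ x, ψ (permHom τ x) = s' (ψ x) := fun x => by
    refine Prod.ext ?_ ?_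
    · show (∏ w : InfinitePlace L, uI w ^ Multiplicative.toAdd x (Sum.inl (σ⁻¹ • w))) *
          ∏ Q : {Q // Q ∈ T'}, uP Q.1 ^ Multiplicative.toAdd x (Sum.inr Q) = galU σ (_ * _)
      have e : ∀ φ : {Q // Q ∈ T'} → Lˣ, ∏ Q, φ Q = 1 := fun φ => Fintype.prod_empty φ
      rw [map_mul, map_prod, map_prod, e, e]
      congr 1
      exact Fintype.prod_equiv (MulAction.toPerm σ⁻¹) _ _ fun w => by
        rw [map_zpow, MulAction.toPerm_apply, ← huIg, smul_inv_smul]
    · show Multiplicative.ofAdd (∑ w : InfinitePlace L, Multiplicative.toAdd x (Sum.inl (σ⁻¹ • w)))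
        = Multiplicative.ofAdd (∑ w : InfinitePlace L, Multiplicative.toAdd x (Sum.inl w))
      congr 1
      exact Fintype.sum_equiv (MulAction.toPerm σ⁻¹) _ _ fun _ => rfl
  have hper : ∀ x, (galU σ)^[n] x = x := galU_period (pow_finrank_eq_one hσ)
  have hs' : ∀ p, s'^[n] p = p := fun p => by
    have key : ∀ i, s'^[i] p = ((galU σ)^[i] p.1, p.2) := fun i => by
      induction i with
      | zero => rfl
      | succ i ih =>
        rw [Function.iterate_succ_apply', ih, Function.iterate_succ_apply']
        rfl
    rw [key, hper]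
  have hE : IsStable (galU σ) (tUnit T') := by
    simpa [primesAbove, hT'] using isStable_tUnit (∅ : Finset (HeightOneSpectrum (𝓞 K))) σ
  obtain ⟨hcross, -, hne⟩ := herbrand_mul hs'
    (A := (tUnit T').prod ⊤) (fun p hp => ⟨hE _ hp.1, trivial⟩)
    (B := ψ.range) (by rintro _ ⟨x, rfl⟩; exact ⟨permHom τ x, hcomm x⟩)
    (by rintro _ ⟨x, rfl⟩; exact latHom_mem T' huI huP x) (relIndex_range_latHom T' huI huP)
  obtain ⟨hm0, hm1⟩ := herbrand_map (n := n) (s := permHom τ) (s' := s') ψ
    (latHom_injective T' huI huP) hcomm ⊤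
  rw [← MonoidHom.range_eq_map] at hm0 hm1
  have hperm := herbrand_perm τ Module.finrank_pos hτn π
    (fun v => by
      obtain ⟨w, hw⟩ := InfinitePlace.comap_surjective (K := L) v
      exact ⟨Sum.inl w, hw⟩)
    (by
      rintro (w | Q)
      · exact comap_smul_place hσ _ w
      · exact isEmptyElim Q)
    (by
      rintro (w | Q) (w' | Q') h
      · obtain ⟨i, hi⟩ := exists_iterate_place (inv_generator hσ) h
        rw [smul_iterate_pow] at hi
        exact ⟨i, by rw [hit]; exact congrArg Sum.inl hi⟩
      all_goals first | exact isEmptyElim Q' | exact isEmptyElim Q)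
    (infIdx L) (fun v => by
      rw [← infIdx_mul_card hσ v]
      congr 1
      refine (Nat.card_eq_of_bijective (fun w : {w : InfinitePlace L //
          w.comap (algebraMap K L) = v} => (⟨Sum.inl w.1, w.2⟩ :
            {p : PlaceSet L T' // π p = v})) ⟨fun a b h => Subtype.ext
          (Sum.inl_injective (congrArg Subtype.val h)), ?_⟩).symm
      rintro ⟨w | Q, h⟩
      · exact ⟨⟨w, h⟩, rfl⟩
      · exact isEmptyElim Q)
  obtain ⟨hB1, hB0⟩ := herbrand_prod (galU σ) Module.finrank_pos hper hE
  rw [hm1, hperm.2, hB1] at hne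
  rw [hm1, hperm.2, mul_one, hB0, hm0, hperm.1, hB1] at hcross
  exact ⟨hcross, hne one_ne_zero⟩

end FA.AmbClass
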