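import Fermat.Agent.AmbiguousClass.Abstract
import Fermat.Agent.AmbiguousClass.Divisor
import Fermat.Agent.AmbiguousClass.Units

/-!
# Chevalley's ambiguous class number formula

For a cyclic extension `L/K` of degree `n` the classes of `L` fixed by the Galois group number
`h_K ∏ e_v / (n [E_K : E_K ∩ N L^×])`, the product over all places of `K`.
-/

set_option autoImplicit false
set_option linter.unusedSectionVars false
set_option linter.style.haveILetI false

noncomputable section

open NumberField IsDedekindDomain
open scoped Pointwise nonZeroDivisors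

namespace FA.AmbClass

open FA.ArtinRec

variable {K L : Type*} [Field K] [NumberField K] [Field L] [NumberField L] [Algebra K L]

theorem galDiv_mul (g h : L ≃ₐ[K] L) (d : Dvs L) : galDiv (g * h) d = galDiv g (galDiv h d) := by
  refine Multiplicative.toAdd.injective ?_
  show Finsupp.mapDomain _ _ = Finsupp.mapDomain _ (Finsupp.mapDomain _ _)
  rw [← Finsupp.mapDomain_comp]
  exact congrArg (fun φ => Finsupp.mapDomain φ _) (funext fun Q => galPrime_mul g h Q)

variable (K) in
/-- The divisor below: the sum over each fibre. -/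
def pushDiv : Dvs L →* Dvs K :=
  AddMonoidHom.toMultiplicative (Finsupp.mapDomain.addMonoidHom (belowP K))

theorem pushDiv_galDiv (g : L ≃ₐ[K] L) (d : Dvs L) : pushDiv K (galDiv g d) = pushDiv K d := by
  refine Multiplicative.toAdd.injective ?_
  show Finsupp.mapDomain _ (Finsupp.mapDomain _ _) = Finsupp.mapDomain _ _
  rw [← Finsupp.mapDomain_comp]
  exact congrArg (fun φ => Finsupp.mapDomain φ _) (funext fun Q => belowP_galPrime g Q)

variable (K L) in
/-- A chosen prime above. -/
def abovePrime (v : HeightOneSpectrum (𝓞 K)) : HeightOneSpectrum (𝓞 L) :=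
  (exists_belowP K L v).choose

theorem belowP_abovePrime (v : HeightOneSpectrum (𝓞 K)) : belowP K (abovePrime K L v) = v :=
  (exists_belowP K L v).choose_spec

theorem abovePrime_injective : Function.Injective (abovePrime K L) := fun a b h => by
  rw [← belowP_abovePrime (L := L) a, ← belowP_abovePrime (L := L) b, h]

variable (K L) in
/-- A divisor read at the chosen primes above. -/
def readDiv : Dvs L →* Dvs K :=
  AddMonoidHom.toMultiplicative
    (Finsupp.comapDomain.addMonoidHom (abovePrime_injective (K := K) (L := L)))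

theorem toAdd_readDiv (d : Dvs L) (v : HeightOneSpectrum (𝓞 K)) :
    Multiplicative.toAdd (readDiv K L d) v = Multiplicative.toAdd d (abovePrime K L v) := rfl

variable (L) in
/-- The ramification index of a prime of `K`. -/
abbrev eBase (v : HeightOneSpectrum (𝓞 K)) : ℕ := v.asIdeal.ramificationIdxIn (𝓞 L)

variable (K L) in
/-- Multiplication by the ramification indices. -/
def scaleDiv : Dvs K →* Dvs K :=
  MonoidHom.mk' (fun d => Multiplicative.ofAdd (Finsupp.ofSupportFinite
      (fun v => (eBase L v : ℤ) * Multiplicative.toAdd d v)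
      ((Multiplicative.toAdd d).hasFiniteSupport.subset fun v hv h => hv (by simp [h]))))
    fun a b => Multiplicative.toAdd.injective (Finsupp.ext fun v => by
      simp [Finsupp.ofSupportFinite_coe, mul_add])

@[simp] theorem toAdd_scaleDiv (d : Dvs K) (v : HeightOneSpectrum (𝓞 K)) :
    Multiplicative.toAdd (scaleDiv K L d) v = (eBase L v : ℤ) * Multiplicative.toAdd d v := rfl

variable [IsGalois K L]

theorem eIdx_eq_eBase (Q : HeightOneSpectrum (𝓞 L)) : eIdx K Q = eBase L (belowP K Q) := by
  haveI : Q.asIdeal.LiesOver (belowP K Q).asIdeal := ⟨rfl⟩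
  haveI := (belowP K Q).isMaximal
  rw [eIdx, Ideal.ramificationIdx'_eq_ramificationIdx _ _ (belowP K Q).ne_bot, eBase,
    Ideal.ramificationIdxIn_eq_ramificationIdx _ Q.asIdeal (L ≃ₐ[K] L)]

theorem eBase_pos (v : HeightOneSpectrum (𝓞 K)) : 0 < eBase L v := by
  obtain ⟨Q, rfl⟩ := exists_belowP K L v
  rw [← eIdx_eq_eBase]
  exact eIdx_pos Q

theorem eBase_eq_one {v : HeightOneSpectrum (𝓞 K)} (h : ¬ IsRam L v) : eBase L v = 1 := by
  obtain ⟨Q, rfl⟩ := exists_belowP K L v
  rw [← eIdx_eq_eBase]
  exact eIdx_eq_one h

variable (K L) in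
theorem finite_eBase_ne_one : {v : HeightOneSpectrum (𝓞 K) | eBase L v ≠ 1}.Finite :=
  (finite_isRam K L).subset fun _ hv => by_contra fun h => hv (eBase_eq_one h)

theorem scaleDiv_injective : Function.Injective (scaleDiv K L) := fun a b h =>
  Multiplicative.toAdd.injective (Finsupp.ext fun v => mul_left_cancel₀
    (Nat.cast_ne_zero.2 (eBase_pos (L := L) v).ne')
    (DFunLike.congr_fun (congrArg Multiplicative.toAdd h) v))

theorem index_range_scaleDiv :
    (scaleDiv K L).range.index = ∏ᶠ v : HeightOneSpectrum (𝓞 K), eBase L v := by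
  classical
  set R := (finite_eBase_ne_one K L).toFinset
  have hR : ∀ v, v ∉ R → eBase L v = 1 := fun v hv => by simpa [R] using hv
  let g : Dvs K →* Multiplicative (∀ v : R, ZMod (eBase L v.1)) :=
    MonoidHom.mk' (fun d => Multiplicative.ofAdd fun v => (Multiplicative.toAdd d v.1 : ℤ))
      fun a b => Multiplicative.toAdd.injective (funext fun v => by simp)
  have hker : (scaleDiv K L).range = g.ker := by
    ext d
    constructor
    · rintro ⟨c, rfl⟩
      refine Multiplicative.toAdd.injective (funext fun v => ?_)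
      show ((Multiplicative.toAdd (scaleDiv K L c) v.1 : ℤ) : ZMod (eBase L v.1)) = 0
      simp
    · intro hd
      have hdvd : ∀ v, (eBase L v : ℤ) ∣ Multiplicative.toAdd d v := fun v => by
        by_cases hv : v ∈ R
        · exact (ZMod.intCast_zmod_eq_zero_iff_dvd _ _).1
            (congrFun (congrArg Multiplicative.toAdd (show g d = 1 from hd)) ⟨v, hv⟩)
        · rw [hR v hv]; exact one_dvd _
      choose c hc using hdvd
      refine ⟨Multiplicative.ofAdd (Finsupp.ofSupportFinite c
        ((Multiplicative.toAdd d).hasFiniteSupport.subset fun v hv h => hv ?_)), ?_⟩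
      · exact (mul_eq_zero.1 ((hc v).symm.trans h)).resolve_left
          (Nat.cast_ne_zero.2 (eBase_pos (L := L) v).ne')
      · exact Multiplicative.toAdd.injective (Finsupp.ext fun v => by
          rw [toAdd_scaleDiv, hc v]; rfl)
  have hsurj : Function.Surjective g := fun y => by
    choose z hz using fun v : R => ZMod.intCast_surjective (Multiplicative.toAdd y v)
    refine ⟨Multiplicative.ofAdd (∑ v : R, Finsupp.single v.1 (z v)),
      Multiplicative.toAdd.injective (funext fun w => ?_)⟩
    show ((((∑ v : R, Finsupp.single v.1 (z v)) : HeightOneSpectrum (𝓞 K) →₀ ℤ) w.1 : ℤ) :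
      ZMod (eBase L w.1)) = _
    rw [Finsupp.finsetSum_apply, Finset.sum_eq_single w, Finsupp.single_eq_same, hz]
    · exact fun v _ hv => Finsupp.single_eq_of_ne fun h => hv (Subtype.ext h.symm)
    · exact fun h => absurd (Finset.mem_univ w) h
  rw [hker, Subgroup.index_ker, MonoidHom.range_eq_top.2 hsurj,
    Nat.card_congr Subgroup.topEquiv.toEquiv, Nat.card_congr Multiplicative.toAdd, Nat.card_pi]
  simp_rw [Nat.card_zmod]
  rw [Finset.prod_coe_sort R (eBase L)]
  refine (finprod_eq_prod_of_mulSupport_subset (eBase L) fun v hv => ?_).symm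
  exact Finset.mem_coe.2 (by_contra fun h => hv (hR v h))

variable {σ : L ≃ₐ[K] L} (hσ : ∀ g, g ∈ Subgroup.zpowers σ)
include hσ

theorem galDiv_period (d : Dvs L) : (galDiv σ)^[Module.finrank K L] d = d := by
  rw [galDiv_iterate, pow_finrank_eq_one hσ]
  exact (galDiv_iterate (1 : L ≃ₐ[K] L) 0 d).symm.trans rfl

/-- **Divisors of norm one are `σ d / d`.** -/
theorem ker_norm_le_range_diff :
    (normHom (galDiv σ) (Module.finrank K L)).ker ≤ (diffHom (galDiv σ)).range := by
  classical
  intro d hd
  set φ : Dvs L →* Dvs L := AddMonoidHom.toMultiplicative (Finsupp.mapDomain.addMonoidHom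
    fun Q => abovePrime K L (belowP K Q)) with hφ
  have key : ∀ (i : ℕ) (e : Dvs L), (galDiv σ)^[i] e / e ∈ (diffHom (galDiv σ)).range := fun i e => by
    induction i with
    | zero => simp
    | succ i ih =>
      rw [← div_mul_div_cancel _ ((galDiv σ)^[i] e), Function.iterate_succ_apply']
      exact mul_mem ⟨_, diffHom_apply _ _⟩ ih
  have h1 : ∀ d : Dvs L, d / φ d ∈ (diffHom (galDiv σ)).range := fun d => by
    rw [← ofAdd_toAdd d]
    induction Multiplicative.toAdd d using Finsupp.induction_linear with
    | zero => simp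
    | add a b ha hb =>
      rw [ofAdd_add, map_mul, mul_div_mul_comm]
      exact mul_mem ha hb
    | single Q k =>
      have hφs : φ (Multiplicative.ofAdd (Finsupp.single Q k)) =
          Multiplicative.ofAdd (Finsupp.single (abovePrime K L (belowP K Q)) k) :=
        congrArg Multiplicative.ofAdd Finsupp.mapDomain_single
      rw [hφs]
      obtain ⟨i, hi⟩ := exists_iterate_eq hσ (belowP_abovePrime (L := L) (belowP K Q))
      set e := Multiplicative.ofAdd (Finsupp.single (abovePrime K L (belowP K Q)) k)
      rw [show Multiplicative.ofAdd (Finsupp.single Q k) = (galDiv σ)^[i] e by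
        rw [galDiv_iterate, galDiv_single, ← galPrime_iterate, hi]]
      exact key i e
  have h2 : pushDiv K d = 1 := by
    have h3 : pushDiv K d ^ Module.finrank K L = 1 := by
      rw [← map_one (pushDiv (L := L) K), ← show normHom (galDiv σ) (Module.finrank K L) d = 1 from hd,
        ArtinRec.normHom_apply, map_prod]
      simp [galDiv_iterate, pushDiv_galDiv]
    refine Multiplicative.toAdd.injective (Finsupp.ext fun v => ?_)
    have h4 := DFunLike.congr_fun (congrArg Multiplicative.toAdd h3) v
    rw [toAdd_pow, toAdd_one, Finsupp.smul_apply, Finsupp.zero_apply, nsmul_eq_mul,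
      mul_eq_zero] at h4
    exact h4.resolve_left (Nat.cast_ne_zero.2 Module.finrank_pos.ne')
  have h3 : φ d = 1 := by
    refine Multiplicative.toAdd.injective ?_
    show Finsupp.mapDomain (abovePrime K L ∘ belowP K) _ = 0
    rw [Finsupp.mapDomain_comp,
      show Finsupp.mapDomain (belowP K) (Multiplicative.toAdd d) = 0 from
        congrArg Multiplicative.toAdd h2, Finsupp.mapDomain_zero]
  simpa [h3] using h1 d

/-- Fixed divisors modulo those of elements of `K`. -/
theorem relIndex_fixed_divisors :
    ((diffHom (galU σ)).ker.map (ordHom (F := L))).relIndex (diffHom (galDiv σ)).ker =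
      (∏ᶠ v : HeightOneSpectrum (𝓞 K), eBase L v) * classNumber K := by
  classical
  set A := (diffHom (galDiv σ)).ker
  set B := (diffHom (galU σ)).ker.map (ordHom (F := L))
  have hfix : ∀ d ∈ A, ∀ Q, Multiplicative.toAdd d Q =
      Multiplicative.toAdd d (abovePrime K L (belowP K Q)) := fun d hd Q => by
    obtain ⟨i, hi⟩ := exists_iterate_eq hσ (belowP_abovePrime (L := L) (belowP K Q))
    rw [galPrime_iterate] at hi
    have hit : galDiv (σ ^ i) d = d := by
      rw [← galDiv_iterate]
      induction i with
      | zero => rfl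
      | succ i ih =>
        rw [Function.iterate_succ_apply']
        exact (congrArg (galDiv σ) (Function.iterate_fixed ((mem_ker_diffHom _).1 hd) i)).trans
          ((mem_ker_diffHom _).1 hd)
    conv_lhs => rw [← hi, ← hit]
    exact galDiv_apply _ _ _
  have hBA : B ≤ A := by
    rintro _ ⟨x, hx, rfl⟩
    rw [mem_ker_diffHom, ← galDiv_ordHom, (mem_ker_diffHom _).1 hx]
  have hinj : A ⊓ (readDiv K L).ker = ⊥ := le_bot_iff.1 fun d hd => by
    rw [Subgroup.mem_bot]
    refine Multiplicative.toAdd.injective (Finsupp.ext fun Q => ?_)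
    rw [hfix d hd.1 Q, ← toAdd_readDiv, show readDiv K L d = 1 from hd.2]
    rfl
  have hA : A.map (readDiv K L) = ⊤ := eq_top_iff.2 fun c _ => by
    have hfin : (Function.support fun Q : HeightOneSpectrum (𝓞 L) =>
        Multiplicative.toAdd c (belowP K Q)).Finite :=
      ((Multiplicative.toAdd c).hasFiniteSupport.biUnion fun v _ => finite_belowP v).subset
        fun Q hQ => Set.mem_biUnion (x := belowP K Q) hQ rfl
    refine ⟨Multiplicative.ofAdd (Finsupp.ofSupportFinite _ hfin), ?_,
      Multiplicative.toAdd.injective (Finsupp.ext fun v => ?_)⟩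
    · refine (mem_ker_diffHom _).2 (Multiplicative.toAdd.injective (Finsupp.ext fun Q => ?_))
      obtain ⟨P, rfl⟩ : ∃ P, galPrime σ P = Q :=
        ⟨galPrime σ⁻¹ Q, by rw [← galPrime_mul, mul_inv_cancel, galPrime_one]⟩
      rw [galDiv_apply]
      show Multiplicative.toAdd c (belowP K P) = Multiplicative.toAdd c (belowP K (galPrime σ P))
      rw [belowP_galPrime]
    · rw [toAdd_readDiv]
      show Multiplicative.toAdd c (belowP K (abovePrime K L v)) = _
      rw [belowP_abovePrime]
  have hB : B.map (readDiv K L) = ((ordHom (F := K)).range).map (scaleDiv K L) := by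
    have hk : (diffHom (galU σ)).ker = (baseU (K := K) (L := L)).range := by
      ext x
      constructor
      · intro hx
        exact exists_baseU_eq hσ ((mem_ker_diffHom _).1 hx)
      · rintro ⟨a, rfl⟩
        exact (mem_ker_diffHom _).2 (galU_baseU σ a)
    have hc : ((readDiv K L).comp ((ordHom (F := L)).comp baseU)) =
        (scaleDiv K L).comp (ordHom (F := K)) := MonoidHom.ext fun a =>
      Multiplicative.toAdd.injective (Finsupp.ext fun v => by
        show ord (abovePrime K L v) (baseU a) = (eBase L v : ℤ) * ord v a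
        rw [ord_baseU, eIdx_eq_eBase, belowP_abovePrime])
    show (Subgroup.map _ _).map _ = _
    rw [hk, MonoidHom.map_range, MonoidHom.map_range, MonoidHom.map_range, hc]
  have h := relIndex_image_ker (readDiv K L) hBA
  rw [hinj, le_bot_iff.1 ((inf_le_inf_right _ hBA).trans hinj.le), Subgroup.relIndex_self, mul_one,
    hA, Subgroup.relIndex_top_right, hB, Subgroup.index_map_of_injective _ scaleDiv_injective,
    index_range_ordHom, index_range_scaleDiv, mul_comm] at h
  exact h.symm

/-- **Chevalley's formula.** -/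
theorem card_fixed :
    Nat.card {c : ClassGroup (𝓞 L) // ∀ g : L ≃ₐ[K] L, galCl g c = c} * Module.finrank K L *
        ((Units.map (Algebra.norm K : L →* K)).range.comap (intUnits (F := K))).index =
      classNumber K * (∏ᶠ v : HeightOneSpectrum (𝓞 K), eBase L v) *
        ∏ v : InfinitePlace K, infIdx L v := by
  set n := Module.finrank K L
  set s := galU σ
  set E := (ordHom (F := L)).ker with hEdef
  have hE : E = tUnit ∅ := ker_ordHom
  have hs : ∀ x, s^[n] x = x := galU_period (pow_finrank_eq_one hσ)
  have hA := relIndex_fixedMod (s := s) (t := galDiv σ) (n := n) (f := ordHom (F := L)) hs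
    (galDiv_period hσ) (galDiv_ordHom σ) (fun x hx => exists_diff_eq hσ hx)
    (ker_norm_le_range_diff hσ)
  rw [relIndex_fixed_divisors hσ] at hA
  -- the fixed classes
  have hall : ∀ c : ClassGroup (𝓞 L), galCl σ c = c → ∀ g : L ≃ₐ[K] L, galCl g c = c := by
    intro c hc g
    obtain ⟨d, rfl⟩ := surjective_cls c
    obtain ⟨i, rfl⟩ := exists_pow_eq hσ g
    induction i with
    | zero =>
      rw [← cls_galDiv, pow_zero]
      congr 1
      exact (galDiv_iterate (1 : L ≃ₐ[K] L) 0 d).symm.trans rfl
    | succ i ih =>
      rw [← cls_galDiv, pow_succ', galDiv_mul, cls_galDiv, cls_galDiv, ih, hc]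
  have hcount : (ordHom (F := L)).range.relIndex (fixedMod (galDiv σ) (ordHom (F := L))) =
      Nat.card {c : ClassGroup (𝓞 L) // ∀ g : L ≃ₐ[K] L, galCl g c = c} := by
    rw [← ker_cls, Subgroup.relIndex_ker]
    refine Nat.card_congr (Equiv.subtypeEquivRight fun c => ?_)
    constructor
    · rintro ⟨d, hd, rfl⟩
      refine hall _ ?_
      have h1 : cls (diffHom (galDiv σ) d) = 1 := by
        rw [← MonoidHom.mem_ker, ker_cls]; exact hd
      rw [diffHom_apply, map_div, div_eq_one, cls_galDiv] at h1
      exact h1
    · intro hc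
      obtain ⟨d, rfl⟩ := surjective_cls c
      refine ⟨d, ?_, rfl⟩
      show diffHom (galDiv σ) d ∈ (ordHom (F := L)).range
      rw [← ker_cls, MonoidHom.mem_ker, diffHom_apply, map_div, div_eq_one, cls_galDiv, hc σ]
  -- the units
  obtain ⟨hH, hH0⟩ := hFix_units hσ
  rw [← hE] at hH hH0
  have hstab : IsStable s E := fun x hx => by
    show ordHom (galU σ x) = 1
    rw [galDiv_ordHom, show ordHom x = 1 from hx, map_one]
  have hNX : E.map (normHom s n) ≤ E ⊓ (normHom s n).range := by
    rintro _ ⟨x, hx, rfl⟩
    exact ⟨hstab.norm_mem hx, x, rfl⟩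
  have hXF : E ⊓ (normHom s n).range ≤ E ⊓ (diffHom s).ker := by
    rintro _ ⟨hx, x, rfl⟩
    exact ⟨hx, (mem_ker_diffHom _).2 (s_norm hs x)⟩
  have hidx : (E ⊓ (normHom s n).range).relIndex (E ⊓ (diffHom s).ker) =
      ((Units.map (Algebra.norm K : L →* K)).range.comap (intUnits (F := K))).index := by
    set N0 := (Units.map (Algebra.norm K : L →* K)).range
    have h1 : E ⊓ (diffHom s).ker = (intUnits (F := K)).range.map (baseU (L := L)) := by
      ext y
      constructor
      · rintro ⟨hy, hy'⟩
        obtain ⟨a, rfl⟩ := exists_baseU_eq hσ ((mem_ker_diffHom _).1 hy')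
        rw [hE] at hy
        exact ⟨a, exists_intUnits_eq fun v => (baseU_mem_tUnit (∅ : Finset _)).1
          (by simpa [primesAbove] using hy) v (Finset.notMem_empty v), rfl⟩
      · rintro ⟨_, ⟨u, rfl⟩, rfl⟩
        refine ⟨?_, (mem_ker_diffHom _).2 (galU_baseU σ _)⟩
        rw [hE]
        exact fun Q _ => (ord_baseU_eq_zero_iff Q _).2 (ord_intUnits _ _)
    have h2 : (normHom s n).range = N0.map (baseU (L := L)) := by
      rw [MonoidHom.map_range]
      exact congrArg MonoidHom.range (MonoidHom.ext fun x => baseU_norm hσ x)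
    have h3 : E ⊓ (normHom s n).range =
        (intUnits (F := K)).range.map (baseU (L := L)) ⊓ N0.map (baseU (L := L)) := by
      have hsub : (normHom s n).range ≤ (diffHom s).ker := by
        rintro _ ⟨y, rfl⟩
        exact (mem_ker_diffHom _).2 (s_norm hs y)
      rw [← h1, ← h2, inf_assoc, inf_eq_right.2 hsub]
    rw [h1, h3, ← Subgroup.map_inf _ _ _ baseU_injective,
      Subgroup.relIndex_map_map_of_injective _ _ baseU_injective, Subgroup.inf_relIndex_left,
      Subgroup.index_comap]
  have hsplit : hFix s n E = (E.map (normHom s n)).relIndex (E ⊓ (normHom s n).range) *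
      ((Units.map (Algebra.norm K : L →* K)).range.comap (intUnits (F := K))).index := by
    rw [← hidx, Subgroup.relIndex_mul_relIndex _ _ _ hNX hXF]
    rfl
  rw [← hcount]
  refine Nat.eq_of_mul_eq_mul_right (Nat.pos_of_ne_zero hH0) ?_
  rw [hsplit] at hH
  set a := (ordHom (F := L)).range.relIndex (fixedMod (galDiv σ) (ordHom (F := L)))
  set b := (E.map (normHom s n)).relIndex (E ⊓ (normHom s n).range)
  set i := ((Units.map (Algebra.norm K : L →* K)).range.comap (intUnits (F := K))).index
  calc a * n * i * hOne s n E = a * hOne s n E * n * i := by ring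
    _ = b * ((∏ᶠ v : HeightOneSpectrum (𝓞 K), eBase L v) * classNumber K) * n * i := by rw [hA]
    _ = classNumber K * (∏ᶠ v : HeightOneSpectrum (𝓞 K), eBase L v) * (b * i * n) := by ring
    _ = _ := by rw [hH]; ring

end FA.AmbClass
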